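import Mathlib

/-!
# Descent of unique factorisation along a faithfully flat map to a local UFD

`R` a noetherian domain, `S` a local domain which is a UFD, `R → S` faithfully flat.
Then `R` is a UFD.  (Mori / Samuel; used with `S` the completion of a local ring `R`.)
-/

namespace Fermat.Agent.S26lib.UFD

open Ideal

universe u v

variable {R : Type u} {S : Type v} [CommRing R] [CommRing S] [Algebra R S]

/-- The ideal `(a : b) = {r | a ∣ r * b}`. -/
def colonIdeal (a b : R) : Ideal R := (Ideal.span {a}).colon {b}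

theorem mem_colonIdeal {a b r : R} : r ∈ colonIdeal a b ↔ a ∣ r * b := by
  unfold colonIdeal
  rw [Submodule.mem_colon_singleton, smul_eq_mul, Ideal.mem_span_singleton]

theorem self_mem_colonIdeal (a b : R) : a ∈ colonIdeal a b :=
  mem_colonIdeal.2 (Dvd.intro _ rfl)

/-- Flatness: the colon ideal commutes with extension of scalars (the nontrivial inclusion). -/
theorem mem_map_colonIdeal_of_flat [Module.Flat R S] (a b : R) (s : S)
    (h : algebraMap R S a ∣ s * algebraMap R S b) :
    s ∈ Ideal.map (algebraMap R S) (colonIdeal a b) := by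
  obtain ⟨s', hs'⟩ := h
  obtain ⟨k, A, y, hx, hA⟩ := Module.Flat.isTrivialRelation_of_sum_smul_eq_zero
      (R := R) (M := S) (f := (![b, -a] : Fin 2 → R)) (x := (![s, s'] : Fin 2 → S)) (by
    simp only [Fin.sum_univ_two, Matrix.cons_val_zero, Matrix.cons_val_one,
      Algebra.smul_def, map_neg]
    rw [mul_comm, hs']; ring)
  have h0 := hx 0
  simp only [Matrix.cons_val_zero] at h0
  rw [h0]
  refine Ideal.sum_mem _ fun j _ => ?_
  rw [Algebra.smul_def]
  refine Ideal.mul_mem_right _ _ (Ideal.mem_map_of_mem _ ?_)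
  rw [mem_colonIdeal]
  have := hA j
  simp only [Fin.sum_univ_two, Matrix.cons_val_zero, Matrix.cons_val_one] at this
  refine ⟨A 1 j, ?_⟩
  linear_combination this

theorem map_colonIdeal_le (a b : R) (s : S)
    (h : s ∈ Ideal.map (algebraMap R S) (colonIdeal a b)) :
    algebraMap R S a ∣ s * algebraMap R S b := by
  rw [Ideal.map, ← Ideal.submodule_span_eq] at h
  refine Submodule.span_induction ?_ ?_ ?_ ?_ h
  · rintro _ ⟨r, hr, rfl⟩
    obtain ⟨c, hc⟩ := mem_colonIdeal.1 hr
    exact ⟨algebraMap R S c, by rw [← map_mul, hc, map_mul]⟩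
  · simp
  · intro x y _ _ hx hy
    rw [add_mul]; exact dvd_add hx hy
  · intro t x _ hx
    rw [smul_eq_mul, mul_assoc]; exact Dvd.dvd.mul_left hx t

/-- In a local domain, if a finitely generated ideal is principal then it is generated by
one of the given generators. -/
theorem exists_generator_of_span_eq_singleton [IsDomain S] [IsLocalRing S]
    (T : Finset S) (c : S) (hc : c ≠ 0) (h : Ideal.span (T : Set S) = Ideal.span {c}) :
    ∃ x ∈ T, Ideal.span {x} = Ideal.span ({c} : Set S) := by
  classical
  have hcT : c ∈ Ideal.span (T : Set S) := by rw [h]; exact Ideal.mem_span_singleton_self c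
  rw [← Ideal.submodule_span_eq, Submodule.mem_span_finset'] at hcT
  obtain ⟨f, hf⟩ := hcT
  have hdiv : ∀ x : T, ∃ y : S, (x : S) = c * y := by
    intro x
    have : (x : S) ∈ Ideal.span ({c} : Set S) := by
      rw [← h]; exact Ideal.subset_span x.2
    exact Ideal.mem_span_singleton'.1 this |>.imp fun y hy => by rw [← hy, mul_comm]
  choose y hy using hdiv
  have hsum : ∑ x : T, f x * y x = 1 := by
    have : c * ∑ x : T, f x * y x = c * 1 := by
      rw [Finset.mul_sum, mul_one]
      conv_rhs => rw [← hf]
      refine Finset.sum_congr rfl fun x _ => ?_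
      rw [smul_eq_mul]; conv_rhs => rw [hy x]
      ring
    exact mul_left_cancel₀ hc this
  -- some `f x * y x` is a unit
  have : ∃ x : T, IsUnit (f x * y x) := by
    by_contra hno
    push Not at hno
    have hmem : ∑ x : T, f x * y x ∈ IsLocalRing.maximalIdeal S :=
      Ideal.sum_mem _ fun x _ => (IsLocalRing.mem_maximalIdeal _).2 (hno x)
    rw [hsum] at hmem
    exact (IsLocalRing.maximalIdeal.isMaximal S).ne_top ((Ideal.eq_top_iff_one _).2 hmem)
  obtain ⟨x, hx⟩ := this
  have hyu : IsUnit (y x) := isUnit_of_mul_isUnit_right hx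
  refine ⟨x, x.2, ?_⟩
  rw [hy x]
  exact Ideal.span_singleton_mul_right_unit hyu c

variable (R S)

/-- **Descent of factoriality.** -/
theorem ufm_of_faithfullyFlat_of_isLocalRing [IsDomain R] [IsNoetherianRing R]
    [IsDomain S] [IsLocalRing S] [UniqueFactorizationMonoid S] [Module.FaithfullyFlat R S] :
    UniqueFactorizationMonoid R := by
  classical
  have hinj : Function.Injective (algebraMap R S) := FaithfulSMul.algebraMap_injective R S
  -- key: colon ideals are principal
  have key : ∀ a b : R, a ≠ 0 → b ≠ 0 → ∃ d : R, colonIdeal a b = Ideal.span {d} := by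
    intro a b ha hb
    set a' := algebraMap R S a
    set b' := algebraMap R S b
    have ha' : a' ≠ 0 := fun h => ha (hinj (h.trans (map_zero _).symm))
    have hb' : b' ≠ 0 := fun h => hb (hinj (h.trans (map_zero _).symm))
    let _ : GCDMonoid S := UniqueFactorizationMonoid.toGCDMonoid S
    -- `lcm a' b' = b' * c`
    obtain ⟨c, hc⟩ : b' ∣ lcm a' b' := dvd_lcm_right a' b'
    have hc0 : c ≠ 0 := by
      intro h
      rw [h, mul_zero, lcm_eq_zero_iff] at hc
      exact hc.elim ha' hb'
    have hJ : Ideal.map (algebraMap R S) (colonIdeal a b) = Ideal.span {c} := by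
      apply le_antisymm
      · intro s hs
        have h1 : a' ∣ s * b' := map_colonIdeal_le a b s hs
        have h2 : lcm a' b' ∣ s * b' := lcm_dvd h1 (Dvd.intro_left s rfl)
        rw [hc, mul_comm s b'] at h2
        exact Ideal.mem_span_singleton.2 ((mul_dvd_mul_iff_left hb').1 h2)
      · rw [Ideal.span_singleton_le_iff_mem]
        apply mem_map_colonIdeal_of_flat
        have : a' ∣ lcm a' b' := dvd_lcm_left a' b'
        rwa [hc, mul_comm] at this
    obtain ⟨T, hT⟩ := (isNoetherianRing_iff_ideal_fg R).1 inferInstance (colonIdeal a b)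
    have hspan : Ideal.span ((T.image (algebraMap R S) : Finset S) : Set S) = Ideal.span {c} := by
      rw [← hJ, ← hT, Ideal.map_span, Finset.coe_image]
    obtain ⟨x, hxT, hx⟩ := exists_generator_of_span_eq_singleton _ c hc0 hspan
    obtain ⟨d, hdT, rfl⟩ := Finset.mem_image.1 hxT
    refine ⟨d, ?_⟩
    have h1 : Ideal.map (algebraMap R S) (colonIdeal a b)
        = Ideal.map (algebraMap R S) (Ideal.span {d}) := by
      rw [hJ, Ideal.map_span, Set.image_singleton, hx]
    exact Ideal.map_injective_of_faithfullyFlat (B := S) h1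
  have : WfDvdMonoid R := IsNoetherianRing.wfDvdMonoid
  refine ⟨fun {p} => ⟨fun hp => ?_, Prime.irreducible⟩⟩
  refine ⟨hp.ne_zero, hp.not_isUnit, fun x y hxy => ?_⟩
  by_cases hx0 : x = 0
  · left; rw [hx0]; exact dvd_zero p
  by_contra hcon
  push Not at hcon
  obtain ⟨hpx, hpy⟩ := hcon
  obtain ⟨d, hd⟩ := key p x hp.ne_zero hx0
  have hpd : p ∈ Ideal.span ({d} : Set R) := hd ▸ self_mem_colonIdeal p x
  have hyd : y ∈ Ideal.span ({d} : Set R) := by
    rw [← hd, mem_colonIdeal, mul_comm]; exact hxy
  obtain ⟨e, he⟩ := Ideal.mem_span_singleton.1 hpd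
  rcases hp.isUnit_or_isUnit he with hdu | heu
  · -- then `1 ∈ colon`, so `p ∣ x`
    have : (1 : R) ∈ colonIdeal p x := by
      rw [hd, Ideal.span_singleton_eq_top.2 hdu]; trivial
    rw [mem_colonIdeal, one_mul] at this
    exact hpx this
  · -- then `(d) = (p)`, so `p ∣ y`
    have : Ideal.span ({d} : Set R) = Ideal.span {p} := by
      rw [he]; exact (Ideal.span_singleton_mul_right_unit heu d).symm
    rw [this, Ideal.mem_span_singleton] at hyd
    exact hpy hyd

end Fermat.Agent.S26lib.UFD
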