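import Mathlib

/-!
# Successive approximation by a subring modulo powers of an ideal
-/

namespace Fermat.Agent.S26lib.UFD

universe u

variable {T : Type u} [CommRing T]

theorem exists_mem_pow_sub_mem_pow_succ (N : Ideal T) (C : Subring T)
    (h0 : ∀ x : T, ∃ c ∈ C, x - c ∈ N)
    (h1 : ∀ x ∈ N, ∃ c ∈ C, c ∈ N ∧ x - c ∈ N ^ 2) (k : ℕ) :
    ∀ x ∈ N ^ k, ∃ c ∈ C, c ∈ N ^ k ∧ x - c ∈ N ^ (k + 1) := by
  induction k with
  | zero =>
    intro x _
    obtain ⟨c, hc, hxc⟩ := h0 x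
    exact ⟨c, hc, by simp, by simpa using hxc⟩
  | succ k ih =>
    intro x hx
    rw [pow_succ] at hx
    refine Submodule.mul_induction_on hx ?_ ?_
    · intro y hy w hw
      obtain ⟨c, hc, hcN, hyc⟩ := ih y hy
      obtain ⟨c', hc', hcN', hwc⟩ := h1 w hw
      refine ⟨c * c', C.mul_mem hc hc', ?_, ?_⟩
      · rw [pow_succ]; exact Ideal.mul_mem_mul hcN hcN'
      · have e : y * w - c * c' = c * (w - c') + (y - c) * w := by ring
        rw [e]
        refine Ideal.add_mem _ ?_ ?_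
        · have : c * (w - c') ∈ N ^ k * N ^ 2 := Ideal.mul_mem_mul hcN hwc
          rwa [← pow_add] at this
        · have : (y - c) * w ∈ N ^ (k + 1) * N := Ideal.mul_mem_mul hyc hw
          rwa [← pow_succ] at this
    · intro y w ⟨c, hc, hcN, hyc⟩ ⟨c', hc', hcN', hwc⟩
      refine ⟨c + c', C.add_mem hc hc', Ideal.add_mem _ hcN hcN', ?_⟩
      have e : y + w - (c + c') = (y - c) + (w - c') := by ring
      rw [e]; exact Ideal.add_mem _ hyc hwc

/-- If `C + N = T` and `N ⊆ (C ∩ N) + N ^ 2` then `C + N ^ k = T` for every `k`. -/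
theorem exists_sub_mem_pow (N : Ideal T) (C : Subring T)
    (h0 : ∀ x : T, ∃ c ∈ C, x - c ∈ N)
    (h1 : ∀ x ∈ N, ∃ c ∈ C, c ∈ N ∧ x - c ∈ N ^ 2) (k : ℕ) :
    ∀ x : T, ∃ c ∈ C, x - c ∈ N ^ k := by
  induction k with
  | zero => intro x; exact ⟨0, C.zero_mem, by simp⟩
  | succ k ih =>
    intro x
    obtain ⟨c, hc, hxc⟩ := ih x
    obtain ⟨c', hc', -, h⟩ := exists_mem_pow_sub_mem_pow_succ N C h0 h1 k (x - c) hxc
    refine ⟨c + c', C.add_mem hc hc', ?_⟩
    have e : x - (c + c') = x - c - c' := by ring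
    rw [e]; exact h

/-- Nilpotent version: if moreover `N ^ k = ⊥`, then `C = ⊤`. -/
theorem subring_eq_top_of_nilpotent (N : Ideal T) (C : Subring T)
    (h0 : ∀ x : T, ∃ c ∈ C, x - c ∈ N)
    (h1 : ∀ x ∈ N, ∃ c ∈ C, c ∈ N ∧ x - c ∈ N ^ 2) (k : ℕ) (hk : N ^ k = ⊥) :
    C = ⊤ := by
  rw [eq_top_iff]
  intro x _
  obtain ⟨c, hc, hxc⟩ := exists_sub_mem_pow N C h0 h1 k x
  rw [hk, Ideal.mem_bot, sub_eq_zero] at hxc
  rw [hxc]; exact hc

theorem map_sub_self_mem_pow_succ (N : Ideal T) (θ : T →+* T)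
    (H : ∀ x, θ x - x ∈ N ^ 2) (k : ℕ) :
    ∀ x ∈ N ^ k, θ x - x ∈ N ^ (k + 1) := by
  have hN2 : N ^ 2 ≤ N := by
    simpa using (Ideal.pow_le_pow_right (I := N) (show 1 ≤ 2 by norm_num))
  induction k with
  | zero =>
    intro x _
    simpa using hN2 (H x)
  | succ k ih =>
    intro x hx
    rw [pow_succ] at hx
    refine Submodule.mul_induction_on hx ?_ ?_
    · intro y hy w hw
      have hθw : θ w ∈ N := by
        have : θ w = (θ w - w) + w := by ring
        rw [this]; exact Ideal.add_mem _ (hN2 (H w)) hw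
      have e : θ (y * w) - y * w = (θ y - y) * θ w + y * (θ w - w) := by
        rw [map_mul]; ring
      rw [e]
      refine Ideal.add_mem _ ?_ ?_
      · have : (θ y - y) * θ w ∈ N ^ (k + 1) * N := Ideal.mul_mem_mul (ih y hy) hθw
        rwa [← pow_succ] at this
      · have : y * (θ w - w) ∈ N ^ k * N ^ 2 := Ideal.mul_mem_mul hy (H w)
        rwa [← pow_add] at this
    · intro y w hy hw
      have e : θ (y + w) - (y + w) = (θ y - y) + (θ w - w) := by rw [map_add]; ring
      rw [e]; exact Ideal.add_mem _ hy hw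

/-- A ring endomorphism which is the identity modulo `N ^ 2`, `N` nilpotent, is injective. -/
theorem injective_of_map_sub_self_mem_sq (N : Ideal T) (θ : T →+* T)
    (H : ∀ x, θ x - x ∈ N ^ 2) (n : ℕ) (hn : N ^ n = ⊥) : Function.Injective θ := by
  rw [injective_iff_map_eq_zero]
  intro x hx
  have key : ∀ k, x ∈ N ^ k := by
    intro k
    induction k with
    | zero => simp
    | succ k ih =>
      have := map_sub_self_mem_pow_succ N θ H k x ih
      rw [hx, zero_sub, neg_mem_iff] at this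
      exact this
  have := key n
  rwa [hn, Ideal.mem_bot] at this

end Fermat.Agent.S26lib.UFD
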