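import Mathlib

/-!
# Isomorphic truncations give isomorphic adic completions

If `φ : A →+* B` maps `I` into `J` and induces bijections `A ⧸ I ^ n → B ⧸ J ^ n` for all `n`,
then `AdicCompletion I A ≃+* AdicCompletion J B`.
-/

namespace Fermat.Agent.S26lib.UFD

open Ideal Ideal.Quotient

universe u v

variable {A : Type u} {B : Type v} [CommRing A] [CommRing B]

theorem factorPow_evalA (I : Ideal A) {m n : ℕ} (hle : m ≤ n) (x : AdicCompletion I A) :
    factorPow I hle (AdicCompletion.evalₐ I n x) = AdicCompletion.evalₐ I m x := by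
  induction x using AdicCompletion.induction_on with
  | _ a =>
    rw [AdicCompletion.evalₐ_mk, AdicCompletion.evalₐ_mk]
    simp only [factorPow, factor_mk]
    exact AdicCompletion.Ideal.mk_eq_mk I hle a

theorem pow_le_comap_pow (I : Ideal A) (J : Ideal B) (φ : A →+* B) (hφ : I ≤ J.comap φ)
    (n : ℕ) : I ^ n ≤ (J ^ n).comap φ := by
  refine le_trans ?_ (Ideal.le_comap_pow φ n)
  exact Ideal.pow_right_mono hφ n

/-- The map induced by `φ` on `n`-th truncations. -/
def truncMap (I : Ideal A) (J : Ideal B) (φ : A →+* B) (hφ : I ≤ J.comap φ) (n : ℕ) :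
    A ⧸ I ^ n →+* B ⧸ J ^ n :=
  Ideal.quotientMap (J ^ n) φ (pow_le_comap_pow I J φ hφ n)

@[simp]
theorem truncMap_mk (I : Ideal A) (J : Ideal B) (φ : A →+* B) (hφ : I ≤ J.comap φ)
    (n : ℕ) (a : A) :
    truncMap I J φ hφ n (Ideal.Quotient.mk _ a) = Ideal.Quotient.mk _ (φ a) := by
  simp [truncMap]

theorem factorPow_truncMap (I : Ideal A) (J : Ideal B) (φ : A →+* B) (hφ : I ≤ J.comap φ)
    {m n : ℕ} (hle : m ≤ n) (x : A ⧸ I ^ n) :
    factorPow J hle (truncMap I J φ hφ n x) = truncMap I J φ hφ m (factorPow I hle x) := by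
  obtain ⟨a, rfl⟩ := Ideal.Quotient.mk_surjective x
  simp [factorPow]

/-- The truncation isomorphisms. -/
noncomputable def truncEquiv (I : Ideal A) (J : Ideal B) (φ : A →+* B) (hφ : I ≤ J.comap φ)
    (hbij : ∀ n, Function.Bijective (truncMap I J φ hφ n)) (n : ℕ) :
    A ⧸ I ^ n ≃+* B ⧸ J ^ n :=
  RingEquiv.ofBijective (truncMap I J φ hφ n) (hbij n)

theorem factorPow_truncEquiv_symm (I : Ideal A) (J : Ideal B) (φ : A →+* B)
    (hφ : I ≤ J.comap φ) (hbij : ∀ n, Function.Bijective (truncMap I J φ hφ n))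
    {m n : ℕ} (hle : m ≤ n) (y : B ⧸ J ^ n) :
    factorPow I hle ((truncEquiv I J φ hφ hbij n).symm y)
      = (truncEquiv I J φ hφ hbij m).symm (factorPow J hle y) := by
  apply (truncEquiv I J φ hφ hbij m).injective
  rw [RingEquiv.apply_symm_apply]
  change truncMap I J φ hφ m _ = _
  rw [← factorPow_truncMap]
  congr 1
  exact (truncEquiv I J φ hφ hbij n).apply_symm_apply y

theorem complFwd_compat (I : Ideal A) (J : Ideal B) (φ : A →+* B) (hφ : I ≤ J.comap φ)
    {m n : ℕ} (hle : m ≤ n) :
    (factorPow J hle).comp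
      ((truncMap I J φ hφ n).comp (AdicCompletion.evalₐ I n : AdicCompletion I A →+* _))
      = (truncMap I J φ hφ m).comp (AdicCompletion.evalₐ I m : AdicCompletion I A →+* _) := by
  ext x
  simp only [RingHom.coe_comp, Function.comp_apply, RingHom.coe_coe]
  rw [factorPow_truncMap, factorPow_evalA]

/-- Forward map on completions. -/
noncomputable def complFwd (I : Ideal A) (J : Ideal B) (φ : A →+* B) (hφ : I ≤ J.comap φ) :
    AdicCompletion I A →+* AdicCompletion J B :=
  AdicCompletion.liftRingHom J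
    (fun n => (truncMap I J φ hφ n).comp (AdicCompletion.evalₐ I n : _ →+* _))
    (complFwd_compat I J φ hφ)

theorem complBwd_compat (I : Ideal A) (J : Ideal B) (φ : A →+* B) (hφ : I ≤ J.comap φ)
    (hbij : ∀ n, Function.Bijective (truncMap I J φ hφ n)) {m n : ℕ} (hle : m ≤ n) :
    (factorPow I hle).comp
      (((truncEquiv I J φ hφ hbij n).symm.toRingHom).comp
        (AdicCompletion.evalₐ J n : AdicCompletion J B →+* _))
      = ((truncEquiv I J φ hφ hbij m).symm.toRingHom).comp
        (AdicCompletion.evalₐ J m : AdicCompletion J B →+* _) := by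
  ext x
  simp only [RingHom.coe_comp, Function.comp_apply, RingHom.coe_coe,
    RingEquiv.toRingHom_eq_coe]
  rw [factorPow_truncEquiv_symm, factorPow_evalA]

/-- Backward map on completions. -/
noncomputable def complBwd (I : Ideal A) (J : Ideal B) (φ : A →+* B) (hφ : I ≤ J.comap φ)
    (hbij : ∀ n, Function.Bijective (truncMap I J φ hφ n)) :
    AdicCompletion J B →+* AdicCompletion I A :=
  AdicCompletion.liftRingHom I
    (fun n => ((truncEquiv I J φ hφ hbij n).symm.toRingHom).comp
      (AdicCompletion.evalₐ J n : _ →+* _))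
    (complBwd_compat I J φ hφ hbij)

theorem evalA_complFwd (I : Ideal A) (J : Ideal B) (φ : A →+* B) (hφ : I ≤ J.comap φ)
    (n : ℕ) (x : AdicCompletion I A) :
    AdicCompletion.evalₐ J n (complFwd I J φ hφ x)
      = truncMap I J φ hφ n (AdicCompletion.evalₐ I n x) := by
  unfold complFwd
  exact AdicCompletion.evalₐ_liftRingHom J _ (complFwd_compat I J φ hφ) n x

theorem evalA_complBwd (I : Ideal A) (J : Ideal B) (φ : A →+* B) (hφ : I ≤ J.comap φ)
    (hbij : ∀ n, Function.Bijective (truncMap I J φ hφ n)) (n : ℕ) (y : AdicCompletion J B) :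
    AdicCompletion.evalₐ I n (complBwd I J φ hφ hbij y)
      = (truncEquiv I J φ hφ hbij n).symm (AdicCompletion.evalₐ J n y) := by
  unfold complBwd
  exact AdicCompletion.evalₐ_liftRingHom I _ (complBwd_compat I J φ hφ hbij) n y

/-- **Isomorphic truncations give isomorphic completions.** -/
noncomputable def complEquiv (I : Ideal A) (J : Ideal B) (φ : A →+* B) (hφ : I ≤ J.comap φ)
    (hbij : ∀ n, Function.Bijective (truncMap I J φ hφ n)) :
    AdicCompletion I A ≃+* AdicCompletion J B :=
  RingEquiv.ofRingHom (complFwd I J φ hφ) (complBwd I J φ hφ hbij)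
    (by
      refine RingHom.ext fun y => ?_
      apply AdicCompletion.ext_evalₐ
      intro n
      simp only [RingHom.coe_comp, Function.comp_apply, RingHom.id_apply]
      rw [evalA_complFwd, evalA_complBwd]
      exact (truncEquiv I J φ hφ hbij n).apply_symm_apply _)
    (by
      refine RingHom.ext fun x => ?_
      apply AdicCompletion.ext_evalₐ
      intro n
      simp only [RingHom.coe_comp, Function.comp_apply, RingHom.id_apply]
      rw [evalA_complBwd, evalA_complFwd]
      exact (truncEquiv I J φ hφ hbij n).symm_apply_apply _)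

theorem complEquiv_of (I : Ideal A) (J : Ideal B) (φ : A →+* B) (hφ : I ≤ J.comap φ)
    (hbij : ∀ n, Function.Bijective (truncMap I J φ hφ n)) (a : A) :
    complEquiv I J φ hφ hbij (AdicCompletion.of I A a) = AdicCompletion.of J B (φ a) := by
  apply AdicCompletion.ext_evalₐ
  intro n
  change AdicCompletion.evalₐ J n (complFwd I J φ hφ _) = _
  rw [evalA_complFwd, AdicCompletion.evalₐ_of, AdicCompletion.evalₐ_of, truncMap_mk]

end Fermat.Agent.S26lib.UFD
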