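import Mathlib
import Fermat.Agent.S26lib.UFD.Approx
import Fermat.Agent.S26lib.UFD.ComplIso

/-!
# Formal coordinates at a rational point of a formally smooth algebra

`R` a noetherian local `K`-algebra with residue field `K`, formally smooth over `K`.
Then `AdicCompletion (maximalIdeal R) R ≃+* MvPowerSeries (Fin g) K`.
-/

namespace Fermat.Agent.S26lib.UFD

open IsLocalRing MvPolynomial

universe u v

theorem exists_single_of_degree_eq_one {σ : Type*} (x : σ →₀ ℕ) (h : Finsupp.degree x = 1) :
    ∃ j, x = Finsupp.single j 1 := by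
  classical
  have hx : x ≠ 0 := by
    rintro rfl; simp at h
  obtain ⟨j, hj⟩ := Finsupp.ne_iff.1 hx
  simp only [Finsupp.coe_zero, Pi.zero_apply] at hj
  have hle : Finsupp.single j 1 ≤ x := by
    rw [Finsupp.single_le_iff]
    omega
  have e : x = Finsupp.single j 1 + (x - Finsupp.single j 1) := (add_tsub_cancel_of_le hle).symm
  have hd : Finsupp.degree (x - Finsupp.single j 1) = 0 := by
    have := congrArg Finsupp.degree e
    rw [map_add, Finsupp.degree_single, h] at this
    omega
  rw [Finsupp.degree_eq_zero_iff] at hd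
  refine ⟨j, ?_⟩
  rw [e, hd, add_zero]

/-- The residue field of the local `K`-algebra `R` is `K`. -/
def ResidueIsBase (K : Type u) [Field K] (R : Type v) [CommRing R] [Algebra K R]
    [IsLocalRing R] : Prop :=
  ∀ r : R, ∃ c : K, r - algebraMap K R c ∈ maximalIdeal R

variable {K : Type u} [Field K] {R : Type v} [CommRing R] [Algebra K R] [IsLocalRing R]

theorem algebraMap_mem_maximalIdeal_iff (c : K) :
    algebraMap K R c ∈ maximalIdeal R ↔ c = 0 := by
  constructor
  · intro h
    by_contra hc
    have : IsUnit (algebraMap K R c) := (IsUnit.mk0 c hc).map _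
    exact (IsLocalRing.mem_maximalIdeal _).1 h this
  · rintro rfl; simp

variable {g : ℕ} (t : Fin g → R)

/-- The coordinate map `K[X₁,…,X_g] → R`, `X i ↦ t i`. -/
noncomputable def coordHom : MvPolynomial (Fin g) K →ₐ[K] R := aeval t

omit [IsLocalRing R] in
@[simp] theorem coordHom_X (i : Fin g) : coordHom (K := K) t (X i) = t i := by simp [coordHom]

omit [IsLocalRing R] in
@[simp] theorem coordHom_C (c : K) : coordHom (K := K) t (C c) = algebraMap K R c := by
  simp [coordHom]

theorem idealOfVars_le_comap (ht : ∀ i, t i ∈ maximalIdeal R) :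
    idealOfVars (Fin g) K ≤ (maximalIdeal R).comap (coordHom (K := K) t).toRingHom := by
  rw [idealOfVars, Ideal.span_le]
  rintro _ ⟨i, rfl⟩
  simp [ht i]

/-- Decomposition of a polynomial into constant part and part in the ideal of variables. -/
theorem sub_C_mem_idealOfVars (p : MvPolynomial (Fin g) K) :
    p - C (coeff 0 p) ∈ idealOfVars (Fin g) K := by
  have := (mem_pow_idealOfVars_iff' (σ := Fin g) (R := K) 1 (p - C (coeff 0 p))).2 ?_
  · simpa using this
  · intro x hx
    have hx0 : x = 0 := by
      have : Finsupp.degree x = 0 := by omega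
      exact (Finsupp.degree_eq_zero_iff x).1 this
    subst hx0
    simp

theorem mem_idealOfVars_iff (p : MvPolynomial (Fin g) K) :
    p ∈ idealOfVars (Fin g) K ↔ coeff 0 p = 0 := by
  constructor
  · intro h
    have := (mem_pow_idealOfVars_iff' (σ := Fin g) (R := K) 1 p).1 (by simpa using h)
    exact this 0 (by simp)
  · intro h
    have := sub_C_mem_idealOfVars p
    rwa [h, map_zero, sub_zero] at this

/-- Linear part. -/
theorem sub_linear_mem_sq (p : MvPolynomial (Fin g) K) :
    p - C (coeff 0 p) - ∑ i, C (coeff (Finsupp.single i 1) p) * X i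
      ∈ idealOfVars (Fin g) K ^ 2 := by
  classical
  rw [mem_pow_idealOfVars_iff']
  intro x hx
  have hdeg : Finsupp.degree x = 0 ∨ Finsupp.degree x = 1 := by omega
  rcases hdeg with h0 | h1
  · have hx0 : x = 0 := (Finsupp.degree_eq_zero_iff x).1 h0
    subst hx0
    simp only [coeff_sub, coeff_C, if_true, sub_self, zero_sub, neg_eq_zero, coeff_sum]
    refine Finset.sum_eq_zero fun i _ => ?_
    rw [coeff_C_mul, coeff_X, if_neg, mul_zero]
    intro h
    have := congrArg (fun f => f i) h
    simp at this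
  · obtain ⟨j, rfl⟩ := exists_single_of_degree_eq_one x h1
    simp only [coeff_sub, coeff_C, coeff_sum]
    rw [if_neg (by
      intro h
      have := congrArg (fun f => f j) h
      simp at this)]
    rw [Finset.sum_eq_single j]
    · rw [coeff_C_mul, coeff_X, if_pos rfl]; ring
    · intro i _ hij
      rw [coeff_C_mul, coeff_X, if_neg, mul_zero]
      intro h
      have := congrArg (fun f => f i) h
      simp [hij] at this
    · intro h; exact absurd (Finset.mem_univ j) h

/-- Every element of `R` is a polynomial in the `t i` modulo any power of the maximal ideal. -/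
theorem exists_coordHom_sub_mem_pow (hres : ResidueIsBase K R)
    (hspan : Ideal.span (Set.range t) = maximalIdeal R) (n : ℕ) (x : R) :
    ∃ p : MvPolynomial (Fin g) K, x - coordHom t p ∈ maximalIdeal R ^ n := by
  classical
  have ht : ∀ i, t i ∈ maximalIdeal R := fun i => hspan ▸ Ideal.subset_span ⟨i, rfl⟩
  have h0 : ∀ y : R, ∃ c ∈ (coordHom (K := K) t).range.toSubring, y - c ∈ maximalIdeal R := by
    intro y
    obtain ⟨c, hc⟩ := hres y
    exact ⟨algebraMap K R c, ⟨C c, by simp⟩, hc⟩
  have h1 : ∀ y ∈ maximalIdeal R, ∃ c ∈ (coordHom (K := K) t).range.toSubring,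
      c ∈ maximalIdeal R ∧ y - c ∈ maximalIdeal R ^ 2 := by
    intro y hy
    rw [← hspan] at hy
    obtain ⟨r, rfl⟩ := (Ideal.mem_span_range_iff_exists_fun).1 hy
    choose a ha using fun i => hres (r i)
    refine ⟨∑ i, algebraMap K R (a i) * t i, ⟨∑ i, C (a i) * X i, by simp⟩, ?_, ?_⟩
    · exact Ideal.sum_mem _ fun i _ => Ideal.mul_mem_left _ _ (ht i)
    · rw [← Finset.sum_sub_distrib]
      refine Ideal.sum_mem _ fun i _ => ?_
      rw [← sub_mul, pow_two]
      exact Ideal.mul_mem_mul (ha i) (ht i)
  obtain ⟨c, ⟨p, hp⟩, hxc⟩ := exists_sub_mem_pow (maximalIdeal R)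
    (coordHom (K := K) t).range.toSubring h0 h1 n x
  exact ⟨p, by rw [show coordHom t p = c from hp]; exact hxc⟩

theorem pow_idealOfVars_le_comap (ht : ∀ i, t i ∈ maximalIdeal R) (n : ℕ) :
    idealOfVars (Fin g) K ^ n ≤ (maximalIdeal R ^ n).comap (coordHom (K := K) t) :=
  pow_le_comap_pow _ _ (coordHom (K := K) t).toRingHom (idealOfVars_le_comap t ht) n

/-- The truncations of the coordinate map. -/
noncomputable def coordTrunc (ht : ∀ i, t i ∈ maximalIdeal R) (n : ℕ) :
    (MvPolynomial (Fin g) K ⧸ idealOfVars (Fin g) K ^ n) →ₐ[K] (R ⧸ maximalIdeal R ^ n) :=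
  Ideal.quotientMapₐ (maximalIdeal R ^ n) (coordHom (K := K) t) (pow_idealOfVars_le_comap t ht n)

@[simp] theorem coordTrunc_mk (ht : ∀ i, t i ∈ maximalIdeal R) (n : ℕ)
    (p : MvPolynomial (Fin g) K) :
    coordTrunc t ht n (Ideal.Quotient.mk _ p) = Ideal.Quotient.mk _ (coordHom t p) := rfl

theorem coordTrunc_surjective (hres : ResidueIsBase K R)
    (hspan : Ideal.span (Set.range t) = maximalIdeal R) (ht : ∀ i, t i ∈ maximalIdeal R) (n : ℕ) :
    Function.Surjective (coordTrunc (K := K) t ht n) := by
  intro y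
  obtain ⟨x, rfl⟩ := Ideal.Quotient.mk_surjective y
  obtain ⟨p, hp⟩ := exists_coordHom_sub_mem_pow t hres hspan n x
  refine ⟨Ideal.Quotient.mk _ p, ?_⟩
  rw [coordTrunc_mk]
  exact (Ideal.Quotient.eq.2 hp).symm

theorem coordTrunc_two_injective (ht : ∀ i, t i ∈ maximalIdeal R)
    (hli : ∀ a : Fin g → K,
      (∑ i, algebraMap K R (a i) * t i) ∈ maximalIdeal R ^ 2 → a = 0) :
    Function.Injective (coordTrunc (K := K) t ht 2) := by
  rw [injective_iff_map_eq_zero]
  intro x hx
  obtain ⟨p, rfl⟩ := Ideal.Quotient.mk_surjective x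
  rw [coordTrunc_mk, Ideal.Quotient.eq_zero_iff_mem] at hx
  rw [Ideal.Quotient.eq_zero_iff_mem]
  set c := coeff 0 p
  set a : Fin g → K := fun i => coeff (Finsupp.single i 1) p
  have hq := sub_linear_mem_sq p
  have hq' := pow_idealOfVars_le_comap (K := K) t ht 2 hq
  rw [Ideal.mem_comap, map_sub, map_sub, map_sum] at hq'
  simp only [map_mul, coordHom_C, coordHom_X] at hq'
  have h1 : algebraMap K R c + ∑ i, algebraMap K R (a i) * t i ∈ maximalIdeal R ^ 2 := by
    have := Ideal.sub_mem _ hx hq'
    convert this using 1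
    ring
  have hsum : ∑ i, algebraMap K R (a i) * t i ∈ maximalIdeal R :=
    Ideal.sum_mem _ fun i _ => Ideal.mul_mem_left _ _ (ht i)
  have hm2 : maximalIdeal R ^ 2 ≤ maximalIdeal R := by
    simpa using (Ideal.pow_le_pow_right (I := maximalIdeal R) (show 1 ≤ 2 by norm_num))
  have hc : c = 0 := by
    rw [← algebraMap_mem_maximalIdeal_iff (R := R)]
    have := Ideal.sub_mem _ (hm2 h1) hsum
    simpa using this
  rw [hc, map_zero, zero_add] at h1
  have ha : a = 0 := hli a h1
  have : p = p - C (coeff 0 p) - ∑ i, C (coeff (Finsupp.single i 1) p) * X i := by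
    have e1 : coeff 0 p = 0 := hc
    have e2 : ∀ i, coeff (Finsupp.single i 1) p = 0 := fun i => congrFun ha i
    simp [e1, e2]
  rw [this]
  exact hq

section Lift

variable (hres : ResidueIsBase K R) (hspan : Ideal.span (Set.range t) = maximalIdeal R)
  (ht : ∀ i, t i ∈ maximalIdeal R)
  (hli : ∀ a : Fin g → K, (∑ i, algebraMap K R (a i) * t i) ∈ maximalIdeal R ^ 2 → a = 0)

/-- The isomorphism of second-order truncations. -/
noncomputable def coordEquivTwo :
    (MvPolynomial (Fin g) K ⧸ idealOfVars (Fin g) K ^ 2) ≃ₐ[K] (R ⧸ maximalIdeal R ^ 2) :=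
  AlgEquiv.ofBijective (coordTrunc (K := K) t ht 2)
    ⟨coordTrunc_two_injective t ht hli, coordTrunc_surjective t hres hspan ht 2⟩

/-- `ψ₂ : R → K[X]/(X)²`, inverse to the coordinate map to second order. -/
noncomputable def psiTwo : R →ₐ[K] (MvPolynomial (Fin g) K ⧸ idealOfVars (Fin g) K ^ 2) :=
  (coordEquivTwo t hres hspan ht hli).symm.toAlgHom.comp
    (Ideal.Quotient.mkₐ K (maximalIdeal R ^ 2))

theorem psiTwo_coordHom (p : MvPolynomial (Fin g) K) :
    psiTwo t hres hspan ht hli (coordHom t p) = Ideal.Quotient.mk _ p := by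
  unfold psiTwo
  show (coordEquivTwo t hres hspan ht hli).symm (Ideal.Quotient.mk _ (coordHom t p)) = _
  rw [AlgEquiv.symm_apply_eq]
  rfl

/-- The transition map from order `k + 2` to order `2`. -/
noncomputable def truncFactor (K : Type u) [Field K] (g k : ℕ) :
    (MvPolynomial (Fin g) K ⧸ idealOfVars (Fin g) K ^ (k + 2)) →ₐ[K]
      (MvPolynomial (Fin g) K ⧸ idealOfVars (Fin g) K ^ 2) :=
  Ideal.Quotient.factorₐ K (Ideal.pow_le_pow_right (show 2 ≤ k + 2 by omega))

theorem truncFactor_mk (k : ℕ) (p : MvPolynomial (Fin g) K) :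
    truncFactor K g k (Ideal.Quotient.mk _ p) = Ideal.Quotient.mk _ p := rfl

theorem truncFactor_surjective (k : ℕ) : Function.Surjective (truncFactor K g k) :=
  Ideal.Quotient.factor_surjective
    (Ideal.pow_le_pow_right (I := idealOfVars (Fin g) K) (show 2 ≤ k + 2 by omega))

theorem ker_truncFactor (k : ℕ) :
    RingHom.ker (truncFactor K g k :
        (MvPolynomial (Fin g) K ⧸ idealOfVars (Fin g) K ^ (k + 2)) →+*
          (MvPolynomial (Fin g) K ⧸ idealOfVars (Fin g) K ^ 2))
      = (idealOfVars (Fin g) K ^ 2).map (Ideal.Quotient.mk (idealOfVars (Fin g) K ^ (k + 2))) := by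
  unfold truncFactor
  rw [Ideal.Quotient.coe_factorₐ, Ideal.Quotient.factor_ker]

theorem truncFactor_ker_nilpotent (k : ℕ) :
    IsNilpotent (RingHom.ker (truncFactor K g k :
        (MvPolynomial (Fin g) K ⧸ idealOfVars (Fin g) K ^ (k + 2)) →+*
          (MvPolynomial (Fin g) K ⧸ idealOfVars (Fin g) K ^ 2))) := by
  refine ⟨k + 2, ?_⟩
  rw [ker_truncFactor, ← Ideal.map_pow, Ideal.zero_eq_bot,
    Ideal.map_eq_bot_iff_le_ker, Ideal.mk_ker, ← pow_mul]
  exact Ideal.pow_le_pow_right (by nlinarith)

variable [Algebra.FormallySmooth K R]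

/-- The lift of `ψ₂` to order `k + 2`. -/
noncomputable def psi (k : ℕ) :
    R →ₐ[K] (MvPolynomial (Fin g) K ⧸ idealOfVars (Fin g) K ^ (k + 2)) :=
  Algebra.FormallySmooth.liftOfSurjective (psiTwo t hres hspan ht hli)
    (truncFactor K g k) (truncFactor_surjective k) (truncFactor_ker_nilpotent k)

theorem truncFactor_psi (k : ℕ) (r : R) :
    truncFactor K g k (psi t hres hspan ht hli k r) = psiTwo t hres hspan ht hli r :=
  Algebra.FormallySmooth.liftOfSurjective_apply _ _ _ _ r

/-- The augmentation `K[X]/(X)^(n+1) → K`. -/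
noncomputable def truncAug (K : Type u) [Field K] (g n : ℕ) :
    (MvPolynomial (Fin g) K ⧸ idealOfVars (Fin g) K ^ (n + 1)) →ₐ[K] K :=
  Ideal.Quotient.liftₐ _ (aeval (0 : Fin g → K)) (by
    intro p hp
    have h1 : idealOfVars (Fin g) K ^ (n + 1) ≤ idealOfVars (Fin g) K := by
      simpa using (Ideal.pow_le_pow_right (I := idealOfVars (Fin g) K) (show 1 ≤ n + 1 by omega))
    have h2 := (mem_idealOfVars_iff p).1 (h1 hp)
    rw [aeval_zero, Algebra.algebraMap_self, RingHom.id_apply]
    rw [← h2, constantCoeff_eq])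

theorem truncAug_mk (n : ℕ) (p : MvPolynomial (Fin g) K) :
    truncAug K g n (Ideal.Quotient.mk _ p) = coeff 0 p := by
  unfold truncAug
  rw [Ideal.Quotient.liftₐ_apply, Ideal.Quotient.lift_mk]
  simp [constantCoeff_eq]

theorem mem_map_of_truncAug_eq_zero (n : ℕ)
    (x : MvPolynomial (Fin g) K ⧸ idealOfVars (Fin g) K ^ (n + 1)) (hx : truncAug K g n x = 0) :
    x ∈ (idealOfVars (Fin g) K).map (Ideal.Quotient.mk (idealOfVars (Fin g) K ^ (n + 1))) := by
  obtain ⟨p, rfl⟩ := Ideal.Quotient.mk_surjective x
  rw [truncAug_mk] at hx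
  exact Ideal.mem_map_of_mem _ ((mem_idealOfVars_iff p).2 hx)

omit [Algebra.FormallySmooth K R] in
/-- A `K`-algebra map from the local ring `R` (residue field `K`) to a truncated polynomial ring
sends the maximal ideal into the augmentation ideal. -/
theorem algHom_mem_map_of_mem_maximalIdeal (n : ℕ)
    (f : R →ₐ[K] (MvPolynomial (Fin g) K ⧸ idealOfVars (Fin g) K ^ (n + 1))) (r : R)
    (hr : r ∈ maximalIdeal R) :
    f r ∈ (idealOfVars (Fin g) K).map (Ideal.Quotient.mk (idealOfVars (Fin g) K ^ (n + 1))) := by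
  apply mem_map_of_truncAug_eq_zero
  by_contra hc
  set c := truncAug K g n (f r) with hcdef
  have hunit : IsUnit (r - algebraMap K R c) := by
    by_contra hnu
    have h1 : r - algebraMap K R c ∈ maximalIdeal R := (IsLocalRing.mem_maximalIdeal _).2 hnu
    have h2 : algebraMap K R c ∈ maximalIdeal R := by
      have := Ideal.sub_mem _ hr h1
      simpa using this
    exact hc ((algebraMap_mem_maximalIdeal_iff c).1 h2)
  have h0 : ((truncAug K g n).comp f) (r - algebraMap K R c) = 0 := by
    rw [map_sub, AlgHom.commutes, AlgHom.comp_apply, ← hcdef]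
    simp
  have := hunit.map ((truncAug K g n).comp f)
  rw [h0] at this
  exact not_isUnit_zero this

theorem psi_mem_pow (k j : ℕ) (r : R) (hr : r ∈ maximalIdeal R ^ j) :
    psi t hres hspan ht hli k r ∈
      ((idealOfVars (Fin g) K).map
        (Ideal.Quotient.mk (idealOfVars (Fin g) K ^ (k + 2)))) ^ j := by
  have h1 : maximalIdeal R ≤ Ideal.comap (psi t hres hspan ht hli k).toRingHom
      ((idealOfVars (Fin g) K).map (Ideal.Quotient.mk (idealOfVars (Fin g) K ^ (k + 2)))) :=
    fun r hr => algHom_mem_map_of_mem_maximalIdeal (k + 1) _ r hr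
  exact pow_le_comap_pow _ _ _ h1 j hr

theorem map_idealOfVars_pow_eq_bot (n : ℕ) :
    ((idealOfVars (Fin g) K).map (Ideal.Quotient.mk (idealOfVars (Fin g) K ^ n))) ^ n = ⊥ := by
  rw [← Ideal.map_pow, Ideal.map_quotient_self]

/-- `ψ` descends to the truncation of `R`. -/
noncomputable def psiQ (k : ℕ) :
    (R ⧸ maximalIdeal R ^ (k + 2)) →+*
      (MvPolynomial (Fin g) K ⧸ idealOfVars (Fin g) K ^ (k + 2)) :=
  Ideal.Quotient.lift _ (psi t hres hspan ht hli k).toRingHom (by
    intro r hr
    have := psi_mem_pow t hres hspan ht hli k (k + 2) r hr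
    rwa [map_idealOfVars_pow_eq_bot, Ideal.mem_bot] at this)

theorem psiQ_mk (k : ℕ) (r : R) :
    psiQ t hres hspan ht hli k (Ideal.Quotient.mk _ r) = psi t hres hspan ht hli k r := rfl

include hres hspan hli in
theorem coordTrunc_add_two_injective (k : ℕ) :
    Function.Injective (coordTrunc (K := K) t ht (k + 2)) := by
  set θ : (MvPolynomial (Fin g) K ⧸ idealOfVars (Fin g) K ^ (k + 2)) →+*
      (MvPolynomial (Fin g) K ⧸ idealOfVars (Fin g) K ^ (k + 2)) :=
    (psiQ t hres hspan ht hli k).comp (coordTrunc (K := K) t ht (k + 2)).toRingHom with hθ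
  have H : ∀ x, θ x - x ∈
      ((idealOfVars (Fin g) K).map
        (Ideal.Quotient.mk (idealOfVars (Fin g) K ^ (k + 2)))) ^ 2 := by
    intro x
    obtain ⟨p, rfl⟩ := Ideal.Quotient.mk_surjective x
    rw [← Ideal.map_pow, ← ker_truncFactor, RingHom.mem_ker, map_sub, sub_eq_zero]
    have : θ (Ideal.Quotient.mk _ p) = psi t hres hspan ht hli k (coordHom t p) := rfl
    rw [this]
    change truncFactor K g k (psi t hres hspan ht hli k (coordHom t p))
      = truncFactor K g k (Ideal.Quotient.mk _ p)
    rw [truncFactor_psi, psiTwo_coordHom, truncFactor_mk]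
  have hinj := injective_of_map_sub_self_mem_sq _ θ H (k + 2) (map_idealOfVars_pow_eq_bot (k + 2))
  intro x y hxy
  apply hinj
  simp only [hθ, RingHom.coe_comp, Function.comp_apply]
  congr 1

omit [Algebra.FormallySmooth K R] in
theorem coordTrunc_zero_injective : Function.Injective (coordTrunc (K := K) t ht 0) := by
  intro x y _
  have : Subsingleton (MvPolynomial (Fin g) K ⧸ idealOfVars (Fin g) K ^ 0) := by
    rw [pow_zero, Ideal.one_eq_top]
    exact Ideal.Quotient.subsingleton_iff.2 rfl
  exact Subsingleton.elim x y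

omit [Algebra.FormallySmooth K R] in
theorem coordTrunc_one_injective : Function.Injective (coordTrunc (K := K) t ht 1) := by
  rw [injective_iff_map_eq_zero]
  intro x hx
  obtain ⟨p, rfl⟩ := Ideal.Quotient.mk_surjective x
  rw [coordTrunc_mk, Ideal.Quotient.eq_zero_iff_mem, pow_one] at hx
  rw [Ideal.Quotient.eq_zero_iff_mem, pow_one, mem_idealOfVars_iff]
  have h1 := idealOfVars_le_comap (K := K) t ht (sub_C_mem_idealOfVars p)
  rw [Ideal.mem_comap] at h1
  have h2 : coordHom t (p - C (coeff 0 p)) = coordHom t p - algebraMap K R (coeff 0 p) := by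
    rw [map_sub, coordHom_C]
  have h3 : (coordHom (K := K) t).toRingHom (p - C (coeff 0 p))
      = coordHom t (p - C (coeff 0 p)) := rfl
  rw [h3, h2] at h1
  have := Ideal.sub_mem _ hx h1
  rw [sub_sub_cancel] at this
  exact (algebraMap_mem_maximalIdeal_iff _).1 this

include hres hspan hli in
theorem coordTrunc_bijective (n : ℕ) : Function.Bijective (coordTrunc (K := K) t ht n) := by
  refine ⟨?_, coordTrunc_surjective t hres hspan ht n⟩
  match n with
  | 0 => exact coordTrunc_zero_injective t ht
  | 1 => exact coordTrunc_one_injective t ht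
  | (k + 2) => exact coordTrunc_add_two_injective t hres hspan ht hli k

omit [Algebra.FormallySmooth K R] in
theorem truncMap_eq_coordTrunc (n : ℕ) :
    ⇑(truncMap (idealOfVars (Fin g) K) (maximalIdeal R) (coordHom (K := K) t).toRingHom
      (idealOfVars_le_comap t ht) n) = ⇑(coordTrunc (K := K) t ht n) := by
  funext x
  obtain ⟨p, rfl⟩ := Ideal.Quotient.mk_surjective x
  rw [truncMap_mk, coordTrunc_mk]
  rfl

/-- **Formal coordinates**: the completion of `R` is a power series ring. -/
noncomputable def mvPowerSeriesEquivCompletion :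
    MvPowerSeries (Fin g) K ≃+* AdicCompletion (maximalIdeal R) R :=
  (MvPowerSeries.toAdicCompletionAlgEquiv (Fin g) K).toRingEquiv.trans
    (complEquiv (idealOfVars (Fin g) K) (maximalIdeal R) (coordHom (K := K) t).toRingHom
      (idealOfVars_le_comap t ht) (fun n => by
        rw [truncMap_eq_coordTrunc]
        exact coordTrunc_bijective t hres hspan ht hli n))

end Lift

/-- **Formal coordinates, existence form.** A noetherian local `K`-algebra with residue field
`K` which is formally smooth over `K` has completion a power series ring over `K`. -/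
theorem exists_mvPowerSeriesEquivCompletion (K : Type u) [Field K] (R : Type v) [CommRing R]
    [Algebra K R] [IsLocalRing R] [IsNoetherianRing R] [Algebra.FormallySmooth K R]
    (hres : ResidueIsBase K R) :
    ∃ g : ℕ, Nonempty (MvPowerSeries (Fin g) K ≃+* AdicCompletion (maximalIdeal R) R) := by
  classical
  set g := Module.finrank (ResidueField R) (CotangentSpace R) with hg
  let b : Module.Basis (Fin g) (ResidueField R) (CotangentSpace R) :=
    Module.finBasis (ResidueField R) (CotangentSpace R)
  choose t' ht' using fun i => (maximalIdeal R).toCotangent_surjective (b i)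
  set t : Fin g → R := fun i => (t' i : R) with htdef
  have ht : ∀ i, t i ∈ maximalIdeal R := fun i => (t' i).2
  have hspan' : Submodule.span R (Set.range t') = ⊤ := by
    rw [← CotangentSpace.span_image_eq_top_iff, ← Set.range_comp]
    have : (⇑(maximalIdeal R).toCotangent ∘ t') = ⇑b := funext ht'
    rw [this]
    exact b.span_eq
  have hspan : Ideal.span (Set.range t) = maximalIdeal R := by
    have h1 := congrArg (Submodule.map (maximalIdeal R).subtype) hspan'
    rw [Submodule.map_span, Submodule.map_top, Submodule.range_subtype, ← Set.range_comp] at h1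
    exact h1
  have hli : ∀ a : Fin g → K,
      (∑ i, algebraMap K R (a i) * t i) ∈ maximalIdeal R ^ 2 → a = 0 := by
    intro a ha
    set y : maximalIdeal R := ∑ i, algebraMap K R (a i) • t' i with hy
    have hy' : (y : R) = ∑ i, algebraMap K R (a i) * t i := by
      rw [hy, Submodule.coe_sum]
      rfl
    have h0 : (maximalIdeal R).toCotangent y = 0 := by
      rw [Ideal.toCotangent_eq_zero, hy']; exact ha
    rw [hy, map_sum] at h0
    have h1 : ∑ i, IsLocalRing.residue R (algebraMap K R (a i)) • b i = 0 := by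
      rw [← h0]
      refine Finset.sum_congr rfl fun i _ => ?_
      rw [map_smul, ht' i]
      rfl
    have h2 := (Fintype.linearIndependent_iff.1 b.linearIndependent) _ h1
    funext i
    have h3 := h2 i
    rw [IsLocalRing.residue_eq_zero_iff] at h3
    exact (algebraMap_mem_maximalIdeal_iff _).1 h3
  exact ⟨g, ⟨mvPowerSeriesEquivCompletion t hres hspan ht hli⟩⟩

end Fermat.Agent.S26lib.UFD
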