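import Mathlib

/-!
# Linear shears of power series rings and regularity in the first variable
-/

namespace Fermat.Agent.S26lib.UFD

open MvPowerSeries

universe u

variable {K : Type u} [Field K] {n : ℕ}

/-- The shear `X i ↦ X i + c i • X 0`. -/
noncomputable def shearFun (c : Fin (n + 1) → K) : Fin (n + 1) → MvPowerSeries (Fin (n + 1)) K :=
  fun i => X i + c i • X 0

theorem hasSubst_shearFun (c : Fin (n + 1) → K) : HasSubst (shearFun c) :=
  hasSubst_of_constantCoeff_zero (fun i => by simp [shearFun])

theorem shearFun_zero : shearFun (0 : Fin (n + 1) → K) = X := by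
  funext i; simp [shearFun]

theorem subst_shearFun_shearFun (c c' : Fin (n + 1) → K) (hc : c 0 = 0) (i : Fin (n + 1)) :
    subst (shearFun c) (shearFun c' i) = shearFun (c + c') i := by
  have ha := hasSubst_shearFun c
  have e : shearFun c' i = X i + c' i • X 0 := rfl
  rw [e, subst_add ha, subst_smul ha, subst_X ha, subst_X ha]
  simp only [shearFun, hc, zero_smul, add_zero, Pi.add_apply, add_smul]
  ring

theorem subst_shearFun_subst_shearFun (c c' : Fin (n + 1) → K) (hc : c 0 = 0)
    (f : MvPowerSeries (Fin (n + 1)) K) :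
    subst (shearFun c) (subst (shearFun c') f) = subst (shearFun (c + c')) f := by
  rw [subst_comp_subst_apply (hasSubst_shearFun c') (hasSubst_shearFun c)]
  congr 1
  funext i
  exact subst_shearFun_shearFun c c' hc i

/-- The shear automorphism. -/
noncomputable def shearEquiv (c : Fin (n + 1) → K) (hc : c 0 = 0) :
    MvPowerSeries (Fin (n + 1)) K ≃+* MvPowerSeries (Fin (n + 1)) K :=
  RingEquiv.ofRingHom (substAlgHom (R := K) (hasSubst_shearFun c)).toRingHom
    (substAlgHom (R := K) (hasSubst_shearFun (-c))).toRingHom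
    (by
      refine RingHom.ext fun f => ?_
      simp only [AlgHom.toRingHom_eq_coe, RingHom.coe_comp, RingHom.coe_coe, Function.comp_apply,
        RingHom.id_apply, substAlgHom_apply]
      rw [subst_shearFun_subst_shearFun c (-c) hc, add_neg_cancel, shearFun_zero, subst_self]
      rfl)
    (by
      refine RingHom.ext fun f => ?_
      simp only [AlgHom.toRingHom_eq_coe, RingHom.coe_comp, RingHom.coe_coe, Function.comp_apply,
        RingHom.id_apply, substAlgHom_apply]
      rw [subst_shearFun_subst_shearFun (-c) c (by simp [hc]), neg_add_cancel, shearFun_zero,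
        subst_self]
      rfl)

theorem shearEquiv_apply (c : Fin (n + 1) → K) (hc : c 0 = 0) (f : MvPowerSeries (Fin (n + 1)) K) :
    shearEquiv c hc f = subst (shearFun c) f := by
  simp [shearEquiv, substAlgHom_apply]

/-- Restriction to the first axis: `X 0 ↦ X`, `X (i+1) ↦ 0`. -/
noncomputable def axisHom (K : Type u) [Field K] (n : ℕ) :
    MvPowerSeries (Fin (n + 1)) K →+* PowerSeries K :=
  (PowerSeries.map (constantCoeff (σ := Fin n) (R := K))).comp
    (finSuccEquiv K n).toRingEquiv.toRingHom

theorem coeff_axisHom (k : ℕ) (f : MvPowerSeries (Fin (n + 1)) K) :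
    PowerSeries.coeff k (axisHom K n f) = coeff (Finsupp.cons k 0) f := by
  unfold axisHom
  simp only [RingHom.coe_comp, Function.comp_apply, PowerSeries.coeff_map]
  rw [← coeff_zero_eq_constantCoeff_apply]
  exact coeff_coeff_finSuccEquiv f

theorem axisHom_X_zero : axisHom K n (X 0) = PowerSeries.X := by
  unfold axisHom
  simp only [RingHom.coe_comp, Function.comp_apply]
  change PowerSeries.map _ (finSuccEquiv K n (X 0)) = _
  rw [finSuccEquiv_X_zero, PowerSeries.map_X]

theorem axisHom_X_succ (j : Fin n) : axisHom K n (X j.succ) = 0 := by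
  unfold axisHom
  simp only [RingHom.coe_comp, Function.comp_apply]
  change PowerSeries.map _ (finSuccEquiv K n (X j.succ)) = _
  rw [finSuccEquiv_X_succ, PowerSeries.map_C, constantCoeff_X, map_zero]

theorem axisHom_smul (a : K) (f : MvPowerSeries (Fin (n + 1)) K) :
    axisHom K n (a • f) = a • axisHom K n f := by
  ext k
  rw [coeff_axisHom, map_smul, map_smul, coeff_axisHom]

/-- The direction vector of the shear: `c' 0 = 1 + c 0`, `c' i = c i`. -/
def shearDir (c : Fin (n + 1) → K) : Fin (n + 1) → K :=
  fun i => (if i = 0 then 1 else 0) + c i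

theorem axisHom_shearFun (c : Fin (n + 1) → K) (i : Fin (n + 1)) :
    axisHom K n (shearFun c i) = shearDir c i • PowerSeries.X := by
  unfold shearFun shearDir
  rw [map_add, axisHom_smul, axisHom_X_zero]
  refine Fin.cases ?_ (fun j => ?_) i
  · rw [axisHom_X_zero, if_pos rfl, add_smul, one_smul]
  · rw [axisHom_X_succ, if_neg (Fin.succ_ne_zero j), zero_add, zero_add]

theorem prod_smul_X_pow {σ : Type*} (u : σ → K) (d : σ →₀ ℕ) :
    (d.prod fun s e => (u s • (PowerSeries.X : PowerSeries K)) ^ e)
      = (d.prod fun s e => u s ^ e) • (PowerSeries.X : PowerSeries K) ^ (Finsupp.degree d) := by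
  classical
  simp only [Finsupp.prod, smul_pow]
  rw [Finsupp.degree_apply, ← Finset.prod_pow_eq_pow_sum]
  induction d.support using Finset.induction_on with
  | empty => simp
  | insert a s ha ih =>
    rw [Finset.prod_insert ha, Finset.prod_insert ha, Finset.prod_insert ha, ih]
    rw [smul_mul_smul_comm]

theorem coeff_cons_prod_shearFun (c : Fin (n + 1) → K) (k : ℕ) (d : Fin (n + 1) →₀ ℕ) :
    coeff (Finsupp.cons k 0) (d.prod fun s e => shearFun c s ^ e)
      = if Finsupp.degree d = k then d.prod (fun s e => shearDir c s ^ e) else 0 := by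
  rw [← coeff_axisHom, map_finsuppProd]
  simp only [map_pow, axisHom_shearFun]
  rw [prod_smul_X_pow, map_smul, PowerSeries.coeff_X_pow, smul_eq_mul]
  split_ifs with h1 h2 h2
  · rw [mul_one]
  · exact absurd h1.symm h2
  · exact absurd h2.symm h1
  · rw [mul_zero]

/-- The coefficient of `X 0 ^ k` in the sheared series. -/
theorem coeff_cons_subst_shearFun (c : Fin (n + 1) → K) (k : ℕ)
    (f : MvPowerSeries (Fin (n + 1)) K) :
    coeff (Finsupp.cons k 0) (subst (shearFun c) f)
      = ∑ d ∈ (Finset.univ : Finset (Fin (n + 1))).finsuppAntidiag k,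
          coeff d f * d.prod (fun s e => shearDir c s ^ e) := by
  classical
  rw [coeff_subst (hasSubst_shearFun c)]
  simp only [coeff_cons_prod_shearFun, smul_eq_mul, mul_ite, mul_zero]
  rw [finsum_eq_sum_of_support_subset]
  · refine Finset.sum_congr rfl fun d hd => ?_
    rw [Finset.mem_finsuppAntidiag] at hd
    rw [if_pos]
    rw [Finsupp.degree_eq_sum]; exact hd.1
  · intro d hd
    rw [Function.mem_support] at hd
    have : Finsupp.degree d = k := by
      by_contra h
      exact hd (if_neg h)
    rw [Finset.mem_coe, Finset.mem_finsuppAntidiag]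
    exact ⟨by rw [← Finsupp.degree_eq_sum]; exact this, Finset.subset_univ _⟩

theorem prod_div_pow {σ : Type*} (x : σ → K) (u : K) (d : σ →₀ ℕ) :
    (d.prod fun s e => (x s / u) ^ e)
      = (d.prod fun s e => x s ^ e) / u ^ (Finsupp.degree d) := by
  classical
  simp only [Finsupp.prod, div_pow]
  rw [Finset.prod_div_distrib, Finsupp.degree_apply, Finset.prod_pow_eq_pow_sum]

/-- **Existence of a regularising shear** over an infinite field. -/
theorem exists_shear_coeff_ne_zero [Infinite K] (f : MvPowerSeries (Fin (n + 1)) K)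
    (hf : f ≠ 0) :
    ∃ c : Fin (n + 1) → K, c 0 = 0 ∧
      ∃ k, coeff (Finsupp.cons k 0) (subst (shearFun c) f) ≠ 0 := by
  classical
  obtain ⟨d₀, hd₀⟩ : ∃ d, coeff d f ≠ 0 := by
    by_contra h
    push Not at h
    exact hf (MvPowerSeries.ext h)
  set k := Finsupp.degree d₀ with hk
  set S := (Finset.univ : Finset (Fin (n + 1))).finsuppAntidiag k with hS
  have hd₀S : d₀ ∈ S := by
    rw [hS, Finset.mem_finsuppAntidiag]
    exact ⟨by rw [← Finsupp.degree_eq_sum], Finset.subset_univ _⟩
  set G : MvPolynomial (Fin (n + 1)) K := ∑ d ∈ S, MvPolynomial.monomial d (coeff d f) with hG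
  have hGeval : ∀ x : Fin (n + 1) → K,
      MvPolynomial.eval x G = ∑ d ∈ S, coeff d f * d.prod (fun s e => x s ^ e) := by
    intro x
    rw [hG, map_sum]
    refine Finset.sum_congr rfl fun d _ => ?_
    rw [MvPolynomial.eval_monomial]
  have hGne : G ≠ 0 := by
    intro h
    have : MvPolynomial.coeff d₀ G = coeff d₀ f := by
      rw [hG, MvPolynomial.coeff_sum]
      simp only [MvPolynomial.coeff_monomial]
      rw [Finset.sum_ite_eq' S d₀, if_pos hd₀S]
    rw [h, MvPolynomial.coeff_zero] at this
    exact hd₀ this.symm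
  have hXG : (MvPolynomial.X 0 * G : MvPolynomial (Fin (n + 1)) K) ≠ 0 :=
    mul_ne_zero (MvPolynomial.X_ne_zero 0) hGne
  obtain ⟨x, hx⟩ : ∃ x : Fin (n + 1) → K, MvPolynomial.eval x (MvPolynomial.X 0 * G) ≠ 0 := by
    by_contra h
    push Not at h
    exact hXG (MvPolynomial.funext (fun x => by rw [h x, map_zero]))
  rw [map_mul, MvPolynomial.eval_X] at hx
  have hx0 : x 0 ≠ 0 := left_ne_zero_of_mul hx
  have hxG : MvPolynomial.eval x G ≠ 0 := right_ne_zero_of_mul hx
  refine ⟨fun i => x i / x 0 - (if i = 0 then 1 else 0), ?_, k, ?_⟩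
  · simp [hx0]
  · rw [coeff_cons_subst_shearFun]
    have hdir : shearDir (fun i => x i / x 0 - (if i = 0 then 1 else 0)) = fun i => x i / x 0 := by
      funext i
      simp [shearDir]
    rw [hdir]
    have : ∑ d ∈ S, coeff d f * d.prod (fun s e => (x s / x 0) ^ e)
        = MvPolynomial.eval x G / x 0 ^ k := by
      rw [hGeval, Finset.sum_div]
      refine Finset.sum_congr rfl fun d hd => ?_
      rw [prod_div_pow, mul_div_assoc]
      rw [hS, Finset.mem_finsuppAntidiag] at hd
      rw [Finsupp.degree_eq_sum, hd.1]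
    rw [this]
    exact div_ne_zero hxG (pow_ne_zero _ hx0)

end Fermat.Agent.S26lib.UFD
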