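import Mathlib

/-!
# Irreducible regular power series over a complete local UFD are prime
-/

namespace Fermat.Agent.S26lib.UFD

open PowerSeries IsLocalRing
open scoped Polynomial

universe u

variable {A : Type u} [CommRing A] [IsLocalRing A]

/-- A monic divisor of positive degree of a distinguished polynomial has constant coefficient
in the maximal ideal. -/
theorem coeff_zero_mem_of_monic_mul_eq_distinguished {f p q : A[X]}
    (hf : f.IsDistinguishedAt (maximalIdeal A)) (hp : p.Monic) (hpq : p * q = f)
    (hdeg : p.natDegree ≠ 0) : p.coeff 0 ∈ maximalIdeal A := by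
  have hmap : (p.map (residue A)) * (q.map (residue A)) = Polynomial.X ^ f.natDegree := by
    rw [← Polynomial.map_mul, hpq]
    exact hf.map_eq_X_pow
  have hdvd : p.map (residue A) ∣ Polynomial.X ^ f.natDegree := Dvd.intro _ hmap
  obtain ⟨j, -, hj⟩ := (dvd_prime_pow Polynomial.prime_X _).1 hdvd
  have hpm : (p.map (residue A)).Monic := hp.map _
  have heq : p.map (residue A) = Polynomial.X ^ j :=
    Polynomial.eq_of_monic_of_associated hpm (Polynomial.monic_X_pow j) hj
  have hj' : j = p.natDegree := by
    have := congrArg Polynomial.natDegree heq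
    rw [hp.natDegree_map, Polynomial.natDegree_X_pow] at this
    exact this.symm
  have h0 : (p.map (residue A)).coeff 0 = 0 := by
    rw [heq, Polynomial.coeff_X_pow, if_neg]
    rw [hj']; exact fun h => hdeg h.symm
  rw [Polynomial.coeff_map] at h0
  exact (residue_eq_zero_iff _).1 h0

variable [IsDomain A] [UniqueFactorizationMonoid A] [IsAdicComplete (maximalIdeal A) A]

/-- **Key step.** An irreducible power series over a complete local UFD whose reduction modulo
the maximal ideal is nonzero is a prime element. -/
theorem prime_of_irreducible_of_map_residue_ne_zero (g : A⟦X⟧)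
    (hg : g.map (residue A) ≠ 0) (hirr : Irreducible g) : Prime g := by
  obtain ⟨f, h, H⟩ := g.exists_isWeierstrassFactorization hg
  have hg0 : g ≠ 0 := hirr.ne_zero
  -- `↑f` is associated to `g`
  have hassoc : Associated (f : A⟦X⟧) g := by
    obtain ⟨u, hu⟩ := H.isUnit
    refine ⟨u, ?_⟩
    rw [hu, ← H.eq_mul]
  have hfirr' : Irreducible (f : A⟦X⟧) := hassoc.symm.irreducible hirr
  have hfm : f.Monic := H.isDistinguishedAt.monic
  -- `f` is irreducible in `A[X]`
  have hfirr : Irreducible f := by
    rw [hfm.irreducible_iff_natDegree]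
    constructor
    · rintro rfl
      exact hfirr'.not_isUnit (by simp)
    · intro p q hp hq hpq
      by_contra hcon
      push Not at hcon
      have hp0 := coeff_zero_mem_of_monic_mul_eq_distinguished H.isDistinguishedAt hp hpq hcon.1
      have hq0 := coeff_zero_mem_of_monic_mul_eq_distinguished H.isDistinguishedAt hq
        (by rw [mul_comm]; exact hpq) hcon.2
      have hmul : (f : A⟦X⟧) = (p : A⟦X⟧) * (q : A⟦X⟧) := by
        rw [← hpq, Polynomial.coe_mul]
      rcases hfirr'.isUnit_or_isUnit hmul with hu | hu
      · rw [PowerSeries.isUnit_iff_constantCoeff, ← PowerSeries.coeff_zero_eq_constantCoeff_apply,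
          Polynomial.coeff_coe] at hu
        exact (IsLocalRing.mem_maximalIdeal _).1 hp0 hu
      · rw [PowerSeries.isUnit_iff_constantCoeff, ← PowerSeries.coeff_zero_eq_constantCoeff_apply,
          Polynomial.coeff_coe] at hu
        exact (IsLocalRing.mem_maximalIdeal _).1 hq0 hu
  have hfprime : Prime f := UniqueFactorizationMonoid.irreducible_iff_prime.1 hfirr
  have hI : (Ideal.span {f} : Ideal A[X]).IsPrime :=
    (Ideal.span_singleton_prime hfm.ne_zero).2 hfprime
  have hdom : IsDomain (A[X] ⧸ Ideal.span {f}) := Ideal.Quotient.isDomain _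
  have hdom' : IsDomain (A⟦X⟧ ⧸ Ideal.span {g}) :=
    H.algEquivQuotient.toRingEquiv.toMulEquiv.isDomain_iff.1 hdom
  have hJ : (Ideal.span {g} : Ideal A⟦X⟧).IsPrime := (Ideal.Quotient.isDomain_iff_prime _).1 hdom'
  exact (Ideal.span_singleton_prime hg0).1 hJ

end Fermat.Agent.S26lib.UFD
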