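import Mathlib
import Fermat.Agent.S26lib.UFD.WeierstrassPrime
import Fermat.Agent.S26lib.UFD.Shear

/-!
# Power series rings in finitely many variables over an infinite field are UFDs
-/

namespace Fermat.Agent.S26lib.UFD

open MvPowerSeries IsLocalRing

universe u

variable {K : Type u} [Field K]

theorem isDomain_mvPowerSeries (σ : Type*) : IsDomain (MvPowerSeries σ K) :=
  NoZeroDivisors.to_isDomain _

section MaximalIdeal

variable {σ : Type*}

theorem mem_span_image_X_of_coeff_eq_zero (T : Finset σ) (f : MvPowerSeries σ K)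
    (hf : ∀ m : σ →₀ ℕ, (∀ s ∈ T, m s = 0) → coeff m f = 0) :
    f ∈ Ideal.span ((X : σ → MvPowerSeries σ K) '' (T : Set σ)) := by
  classical
  induction T using Finset.induction_on generalizing f with
  | empty =>
    have : f = 0 := by
      ext m
      rw [hf m (by simp)]
      simp
    rw [this]; exact Ideal.zero_mem _
  | insert s T' hs ih =>
    set f₁ : MvPowerSeries σ K := fun m => if m s = 0 then coeff m f else 0 with hf₁
    have hc₁ : ∀ m, coeff m f₁ = if m s = 0 then coeff m f else 0 := fun m => rfl
    have h₁ : f₁ ∈ Ideal.span ((X : σ → MvPowerSeries σ K) '' (T' : Set σ)) := by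
      apply ih
      intro m hm
      rw [hc₁]
      split_ifs with h0
      · apply hf
        intro t ht
        rcases Finset.mem_insert.1 ht with rfl | ht'
        · exact h0
        · exact hm t ht'
      · rfl
    have h₂ : (X s : MvPowerSeries σ K) ∣ f - f₁ := by
      rw [X_dvd_iff]
      intro m hm
      rw [map_sub, hc₁, if_pos hm, sub_self]
    have hsub : Ideal.span ((X : σ → MvPowerSeries σ K) '' (T' : Set σ))
        ≤ Ideal.span ((X : σ → MvPowerSeries σ K) '' ((insert s T' : Finset σ) : Set σ)) := by
      apply Ideal.span_mono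
      apply Set.image_mono
      intro t ht
      exact Finset.mem_insert_of_mem ht
    have : f = f₁ + (f - f₁) := by ring
    rw [this]
    refine Ideal.add_mem _ (hsub h₁) ?_
    obtain ⟨q, hq⟩ := h₂
    rw [hq]
    refine Ideal.mul_mem_right _ _ (Ideal.subset_span ⟨s, ?_, rfl⟩)
    exact Finset.mem_insert_self s T'

theorem maximalIdeal_eq_span_range_X [Finite σ] :
    maximalIdeal (MvPowerSeries σ K) = Ideal.span (Set.range (X : σ → MvPowerSeries σ K)) := by
  classical
  have := Fintype.ofFinite σ
  apply le_antisymm
  · intro f hf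
    have hnu : ¬ IsUnit f := (IsLocalRing.mem_maximalIdeal _).1 hf
    rw [MvPowerSeries.isUnit_iff_constantCoeff, isUnit_iff_ne_zero, not_not] at hnu
    have := mem_span_image_X_of_coeff_eq_zero (Finset.univ : Finset σ) f (by
      intro m hm
      have : m = 0 := by
        ext s
        exact hm s (Finset.mem_univ s)
      rw [this, coeff_zero_eq_constantCoeff_apply, hnu])
    simpa using this
  · rw [Ideal.span_le]
    rintro _ ⟨s, rfl⟩
    rw [SetLike.mem_coe, IsLocalRing.mem_maximalIdeal, mem_nonunits_iff,
      MvPowerSeries.isUnit_iff_constantCoeff, constantCoeff_X]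
    exact not_isUnit_zero

instance isAdicComplete_maximalIdeal [Finite σ] :
    IsAdicComplete (maximalIdeal (MvPowerSeries σ K)) (MvPowerSeries σ K) := by
  rw [maximalIdeal_eq_span_range_X]
  infer_instance

end MaximalIdeal

section Regular

variable {n : ℕ}

/-- Regularity in the variable `X 0` from a nonzero pure coefficient. -/
theorem map_residue_finSuccEquiv_ne_zero (g : MvPowerSeries (Fin (n + 1)) K) (k : ℕ)
    (hk : coeff (Finsupp.cons k 0) g ≠ 0) :
    (finSuccEquiv K n g).map (residue (MvPowerSeries (Fin n) K)) ≠ 0 := by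
  intro h
  have h1 := congrArg (PowerSeries.coeff k) h
  rw [PowerSeries.coeff_map, map_zero, residue_eq_zero_iff, IsLocalRing.mem_maximalIdeal,
    mem_nonunits_iff, MvPowerSeries.isUnit_iff_constantCoeff, isUnit_iff_ne_zero, not_not,
    ← coeff_zero_eq_constantCoeff_apply, coeff_coeff_finSuccEquiv] at h1
  exact hk h1

/-- **Regularisation.** Over an infinite field every nonzero power series becomes regular in the
first variable after a linear automorphism. -/
theorem exists_ringEquiv_map_residue_ne_zero [Infinite K] (f : MvPowerSeries (Fin (n + 1)) K)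
    (hf : f ≠ 0) :
    ∃ e : MvPowerSeries (Fin (n + 1)) K ≃+* MvPowerSeries (Fin (n + 1)) K,
      (finSuccEquiv K n (e f)).map (residue (MvPowerSeries (Fin n) K)) ≠ 0 := by
  obtain ⟨c, hc, k, hk⟩ := exists_shear_coeff_ne_zero f hf
  refine ⟨shearEquiv c hc, ?_⟩
  rw [shearEquiv_apply]
  exact map_residue_finSuccEquiv_ne_zero _ k hk

end Regular

/-- **`K⟦X₁,…,X_n⟧` is a unique factorisation domain** (`K` an infinite field). -/
theorem ufm_mvPowerSeries_fin [Infinite K] (n : ℕ) :
    UniqueFactorizationMonoid (MvPowerSeries (Fin n) K) := by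
  induction n with
  | zero =>
    exact (MulEquiv.uniqueFactorizationMonoid_iff
      (isEmptyEquiv (σ := Fin 0) (R := K)).toRingEquiv.toMulEquiv).2 inferInstance
  | succ n ih =>
    have := isDomain_mvPowerSeries (K := K) (Fin n)
    have := isDomain_mvPowerSeries (K := K) (Fin (n + 1))
    have : WfDvdMonoid (MvPowerSeries (Fin (n + 1)) K) := IsNoetherianRing.wfDvdMonoid
    refine ⟨fun {f} => ⟨fun hirr => ?_, Prime.irreducible⟩⟩
    obtain ⟨e, he⟩ := exists_ringEquiv_map_residue_ne_zero f hirr.ne_zero
    have h1 : Irreducible (e f) := (MulEquiv.irreducible_iff e.toMulEquiv).2 hirr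
    have h2 : Irreducible (finSuccEquiv K n (e f)) :=
      (MulEquiv.irreducible_iff (finSuccEquiv K n).toRingEquiv.toMulEquiv).2 h1
    have h3 : Prime (finSuccEquiv K n (e f)) :=
      prime_of_irreducible_of_map_residue_ne_zero _ he h2
    have h4 : Prime (e f) := (MulEquiv.prime_iff (finSuccEquiv K n).toRingEquiv.toMulEquiv).1 h3
    exact (MulEquiv.prime_iff e.toMulEquiv).1 h4

/-- Version for any finite index type. -/
theorem ufm_mvPowerSeries [Infinite K] (σ : Type*) [Finite σ] :
    UniqueFactorizationMonoid (MvPowerSeries σ K) := by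
  have := Fintype.ofFinite σ
  exact (MulEquiv.uniqueFactorizationMonoid_iff
    (renameEquiv K (Fintype.equivFin σ)).toRingEquiv.toMulEquiv).2
      (ufm_mvPowerSeries_fin (Fintype.card σ))

end Fermat.Agent.S26lib.UFD
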