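import Mathlib
import Fermat.Agent.S26lib.UFD.Descent
import Fermat.Agent.S26lib.UFD.FormalCoord
import Fermat.Agent.S26lib.UFD.PowerSeriesUFD

/-!
# A formally smooth noetherian local `K`-algebra with residue field `K` is a UFD
-/

namespace Fermat.Agent.S26lib.UFD

open IsLocalRing

universe u v

variable (K : Type u) [Field K] [Infinite K] (R : Type v) [CommRing R] [Algebra K R]
  [IsLocalRing R] [IsNoetherianRing R] [Algebra.FormallySmooth K R]

/-- The completion is a domain and a UFD. -/
theorem isDomain_and_ufm_adicCompletion (hres : ResidueIsBase K R) :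
    IsDomain (AdicCompletion (maximalIdeal R) R) ∧
      UniqueFactorizationMonoid (AdicCompletion (maximalIdeal R) R) := by
  obtain ⟨g, ⟨e⟩⟩ := exists_mvPowerSeriesEquivCompletion K R hres
  have hd := isDomain_mvPowerSeries (K := K) (Fin g)
  have hu := ufm_mvPowerSeries_fin (K := K) g
  have hd' : IsDomain (AdicCompletion (maximalIdeal R) R) := e.toMulEquiv.isDomain_iff.1 hd
  exact ⟨hd', (MulEquiv.uniqueFactorizationMonoid_iff e.toMulEquiv).1 hu⟩

theorem faithfullyFlat_adicCompletion :
    Module.FaithfullyFlat R (AdicCompletion (maximalIdeal R) R) :=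
  Module.FaithfullyFlat.of_flat_of_isLocalHom

/-- **Main local theorem.** -/
theorem isDomain_and_ufm_of_formallySmooth (hres : ResidueIsBase K R) :
    IsDomain R ∧ UniqueFactorizationMonoid R := by
  obtain ⟨hd, hu⟩ := isDomain_and_ufm_adicCompletion K R hres
  have hff := faithfullyFlat_adicCompletion R
  have hinj : Function.Injective (algebraMap R (AdicCompletion (maximalIdeal R) R)) :=
    FaithfulSMul.algebraMap_injective R _
  have hdR : IsDomain R := hinj.isDomain _
  exact ⟨hdR, ufm_of_faithfullyFlat_of_isLocalRing R (AdicCompletion (maximalIdeal R) R)⟩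

end Fermat.Agent.S26lib.UFD
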