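import Mathlib
import Fermat.Agent.S26lib.UFD.LocalUFD

/-!
# Local rings of smooth algebras over an algebraically closed field are UFDs
-/

namespace Fermat.Agent.S26lib.UFD

open IsLocalRing

universe u v

variable (K : Type u) [Field K] [IsAlgClosed K] (B : Type v) [CommRing B] [Algebra K B]

/-- Nullstellensatz: a maximal ideal of a finite type algebra over an algebraically closed field
has residue field `K`. -/
theorem exists_sub_algebraMap_mem_of_isMaximal [Algebra.FiniteType K B] (m : Ideal B)
    [hm : m.IsMaximal] (b : B) : ∃ c : K, b - algebraMap K B c ∈ m := by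
  let _ := Ideal.Quotient.field m
  have hfin : Module.Finite K (B ⧸ m) := finite_of_finite_type_of_isJacobsonRing K (B ⧸ m)
  have hint : Algebra.IsIntegral K (B ⧸ m) := Algebra.IsIntegral.of_finite K (B ⧸ m)
  obtain ⟨c, hc⟩ := (IsAlgClosed.algebraMap_bijective_of_isIntegral (k := K) (K := B ⧸ m)).2
    (Ideal.Quotient.mk m b)
  refine ⟨c, ?_⟩
  rw [← Ideal.Quotient.eq_zero_iff_mem, map_sub, ← hc,
    IsScalarTower.algebraMap_apply K B (B ⧸ m), Ideal.Quotient.algebraMap_eq, sub_self]

theorem residueIsBase_localization_atPrime [Algebra.FiniteType K B] (m : Ideal B)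
    [hm : m.IsMaximal] : ResidueIsBase K (Localization.AtPrime m) := by
  intro r
  obtain ⟨y, hy⟩ := (IsLocalization.AtPrime.equivQuotMaximalIdeal m
    (Localization.AtPrime m)).surjective (Ideal.Quotient.mk _ r)
  obtain ⟨b, rfl⟩ := Ideal.Quotient.mk_surjective y
  rw [IsLocalization.AtPrime.equivQuotMaximalIdeal_apply_mk, Ideal.Quotient.eq] at hy
  obtain ⟨c, hc⟩ := exists_sub_algebraMap_mem_of_isMaximal K B m b
  refine ⟨c, ?_⟩
  have h1 : algebraMap B (Localization.AtPrime m) (b - algebraMap K B c)
      ∈ maximalIdeal (Localization.AtPrime m) := by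
    rw [← Ideal.mem_comap, ← Ideal.under_def,
      IsLocalization.AtPrime.under_maximalIdeal (Localization.AtPrime m) m]
    exact hc
  have h2 : r - algebraMap K (Localization.AtPrime m) c
      = -(algebraMap B (Localization.AtPrime m) b - r)
        + algebraMap B (Localization.AtPrime m) (b - algebraMap K B c) := by
    rw [map_sub, ← IsScalarTower.algebraMap_apply K B (Localization.AtPrime m)]
    ring
  rw [h2]
  exact Ideal.add_mem _ (Ideal.neg_mem_iff _ |>.2 hy) h1

/-- **Local rings at maximal ideals of a smooth algebra are UFDs.** -/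
theorem isDomain_and_ufm_localization_of_isMaximal (K : Type u) [Field K] [IsAlgClosed K]
    (B : Type v) [CommRing B] [Algebra K B] [Algebra.Smooth K B]
    (m : Ideal B) [hm : m.IsMaximal] :
    IsDomain (Localization.AtPrime m) ∧ UniqueFactorizationMonoid (Localization.AtPrime m) := by
  have : Infinite K := IsAlgClosed.instInfinite
  have : Algebra.FiniteType K B := inferInstance
  have : IsNoetherianRing B := Algebra.FiniteType.isNoetherianRing K B
  have : IsNoetherianRing (Localization.AtPrime m) :=
    IsLocalization.isNoetherianRing m.primeCompl _ inferInstance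
  have : Algebra.FormallySmooth K (Localization.AtPrime m) :=
    Algebra.FormallySmooth.comp K B (Localization.AtPrime m)
  exact isDomain_and_ufm_of_formallySmooth K (Localization.AtPrime m)
    (residueIsBase_localization_atPrime K B m)

/-- **Local rings at all primes of a smooth algebra over an algebraically closed field are UFDs.** -/
theorem ufd_localization_of_smooth (K : Type u) [Field K] [IsAlgClosed K]
    (B : Type v) [CommRing B] [Algebra K B] [Algebra.Smooth K B]
    (p : Ideal B) [hp : p.IsPrime] :
    IsDomain (Localization.AtPrime p) ∧ UniqueFactorizationMonoid (Localization.AtPrime p) := by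
  obtain ⟨m, hm, hpm⟩ := Ideal.exists_le_maximal p hp.ne_top
  obtain ⟨hd, hu⟩ := isDomain_and_ufm_localization_of_isMaximal K B m
  have hle : m.primeCompl ≤ p.primeCompl := fun x hx hxp => hx (hpm hxp)
  let _ : Algebra (Localization.AtPrime m) (Localization.AtPrime p) :=
    IsLocalization.localizationAlgebraOfSubmonoidLe _ _ m.primeCompl p.primeCompl hle
  have : IsScalarTower B (Localization.AtPrime m) (Localization.AtPrime p) :=
    IsLocalization.localization_isScalarTower_of_submonoid_le _ _ _ _ hle
  have : IsLocalization (Submonoid.map (algebraMap B (Localization.AtPrime m)) p.primeCompl)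
      (Localization.AtPrime p) :=
    IsLocalization.isLocalization_of_submonoid_le _ _ m.primeCompl p.primeCompl hle
  have hT : Submonoid.map (algebraMap B (Localization.AtPrime m)) p.primeCompl
      ≤ nonZeroDivisors (Localization.AtPrime m) := by
    rintro _ ⟨x, hx, rfl⟩
    apply mem_nonZeroDivisors_of_ne_zero
    intro h0
    obtain ⟨s, hs⟩ := (IsLocalization.map_eq_zero_iff m.primeCompl (Localization.AtPrime m) x).1 h0
    have hsx : (s : B) * x ∈ p := by rw [hs]; exact p.zero_mem
    rcases hp.mem_or_mem hsx with h | h
    · exact s.2 (hpm h)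
    · exact hx h
  have hd' : IsDomain (Localization.AtPrime p) :=
    IsLocalization.isDomain_of_le_nonZeroDivisors (Localization.AtPrime p) hT
  exact ⟨hd', UniqueFactorizationMonoid.of_isLocalization
    (Submonoid.map (algebraMap B (Localization.AtPrime m)) p.primeCompl) (Localization.AtPrime p)⟩

end Fermat.Agent.S26lib.UFD
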