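import Mathlib
import Fermat.Agent.S26lib.UFD.SmoothAlgebra

/-!
# Stalks of a smooth scheme over an algebraically closed field are UFDs
-/

namespace Fermat.Agent.S26lib.UFD

open AlgebraicGeometry CategoryTheory

universe u

/-- **Cartier = Weil, algebraic core.** Every stalk of a scheme smooth over an algebraically
closed field is a unique factorisation domain. -/
theorem ufd_stalk_of_smooth {K : Type u} [Field K] [IsAlgClosed K] {X : Scheme.{u}}
    (f : X ⟶ Spec (CommRingCat.of K)) [Smooth f] (x : X) :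
    IsDomain (X.presheaf.stalk x) ∧ UniqueFactorizationMonoid (X.presheaf.stalk x) := by
  obtain ⟨V, hV, hxV, -⟩ := exists_isAffineOpen_mem_and_subset (X := X) (x := x) (U := ⊤) trivial
  -- the structure map `K → Γ(X, V)`
  have e : V ≤ f ⁻¹ᵁ ⊤ := le_top
  set φ : K →+* Γ(X, V) :=
    (f.appLE ⊤ V e).hom.comp (Scheme.ΓSpecIso (CommRingCat.of K)).inv.hom with hφ
  have hφs : φ.Smooth := by
    refine RingHom.Smooth.comp ?_ (Smooth.smooth_appLE f (isAffineOpen_top _) hV e)
    exact RingHom.Smooth.of_bijective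
      (ConcreteCategory.bijective_of_isIso (Scheme.ΓSpecIso (CommRingCat.of K)).inv)
  algebraize [φ]
  -- the prime of `x`
  set p := hV.primeIdealOf ⟨x, hxV⟩ with hp
  let _ : Algebra Γ(X, V) (X.presheaf.stalk x) :=
    TopCat.Presheaf.algebra_section_stalk X.presheaf (⟨x, hxV⟩ : V)
  have hloc : IsLocalization.AtPrime (X.presheaf.stalk x) p.asIdeal :=
    hV.isLocalization_stalk ⟨x, hxV⟩
  obtain ⟨hd, hu⟩ := ufd_localization_of_smooth K Γ(X, V) p.asIdeal
  let ε : Localization.AtPrime p.asIdeal ≃ₐ[Γ(X, V)] X.presheaf.stalk x :=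
    IsLocalization.algEquiv p.asIdeal.primeCompl _ _
  exact ⟨ε.toRingEquiv.toMulEquiv.isDomain_iff.1 hd,
    (MulEquiv.uniqueFactorizationMonoid_iff ε.toRingEquiv.toMulEquiv).1 hu⟩

end Fermat.Agent.S26lib.UFD
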