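import Mathlib
import Fermat.Agent.S26lib.UFD.Stalk

/-!
# Consequences of factoriality of the stalks of a smooth scheme
-/

namespace Fermat.Agent.S26lib.UFD

open AlgebraicGeometry CategoryTheory

universe u

theorem isDomain_stalk_of_smooth {K : Type u} [Field K] [IsAlgClosed K] {X : Scheme.{u}}
    (f : X ⟶ Spec (CommRingCat.of K)) [Smooth f] (x : X) : IsDomain (X.presheaf.stalk x) :=
  (ufd_stalk_of_smooth f x).1

theorem ufm_stalk_of_smooth {K : Type u} [Field K] [IsAlgClosed K] {X : Scheme.{u}}
    (f : X ⟶ Spec (CommRingCat.of K)) [Smooth f] (x : X) :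
    UniqueFactorizationMonoid (X.presheaf.stalk x) :=
  (ufd_stalk_of_smooth f x).2

/-- Smooth over an algebraically closed field implies normal (stalkwise). -/
theorem isIntegrallyClosed_stalk_of_smooth {K : Type u} [Field K] [IsAlgClosed K]
    {X : Scheme.{u}} (f : X ⟶ Spec (CommRingCat.of K)) [Smooth f] (x : X) :
    IsIntegrallyClosed (X.presheaf.stalk x) := by
  have := isDomain_stalk_of_smooth f x
  have := ufm_stalk_of_smooth f x
  infer_instance

/-- **Weil ⇒ Cartier, local form**: in a stalk of a smooth scheme every height-one prime is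
principal. -/
theorem exists_eq_span_singleton_of_height_eq_one {K : Type u} [Field K] [IsAlgClosed K]
    {X : Scheme.{u}} (f : X ⟶ Spec (CommRingCat.of K)) [Smooth f] (x : X)
    (p : Ideal (X.presheaf.stalk x)) [p.IsPrime] (hp : p.height = 1) :
    ∃ t, p = Ideal.span {t} := by
  have := isDomain_stalk_of_smooth f x
  have := ufm_stalk_of_smooth f x
  obtain ⟨t, ht⟩ := UniqueFactorizationMonoid.isPrincipal_of_height_eq_one hp
  exact ⟨t, ht⟩

theorem isReduced_of_smooth {K : Type u} [Field K] [IsAlgClosed K] {X : Scheme.{u}}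
    (f : X ⟶ Spec (CommRingCat.of K)) [Smooth f] : IsReduced X := by
  have : ∀ x : X, _root_.IsReduced (X.presheaf.stalk x) := fun x => by
    have := isDomain_stalk_of_smooth f x
    infer_instance
  exact isReduced_of_isReduced_stalk X

end Fermat.Agent.S26lib.UFD
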